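import Fermat.Agent.S36.Eng.Spec
import Fermat.Agent.S36.H193.WallFlex

/-!
# S36 / ALG3 — frozen interfaces (sub-architect helper586)

`Eng/Spec.lean` (architect helper996) freezes `Eng.TripleCtx` and `Eng.Alg3Statement`.
This file cuts `Eng.Alg3Statement` into THREE leaves; `Skel.lean` proves

    alg3_of_leaves : LeafStepA → LeafSheets → LeafPure → Eng.Alg3Statement     (`C = (q² - 1)²`).

Every leaf is quantified over the full context of `Eng.Alg3Statement`
(`R` henselian DVR with algebraically closed residue field of characteristic `q`, uniformiser `w`,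
`E = Frac R`, `TripleCtx w q α β x x' V₁ V₂ V₃ V₁' V₂'`).

* `LeafStepA`  (steps (a), (b); owner helper586, from `S36/H586/StepAB.lean`):
  `f ^ (q² - 1) = w ^ s * G ^ m * u` with `u ≡ 1` on `V₁, V₂, V₃` and `N_α u`, `N_β u`
  `m`-th powers.
* `LeafSheets` (G2): every sheet of `x` is one of `V₁, V₂, V₃` (from `qep_f`).
* `LeafPure`   (steps (c1)–(c5); G3 + G4): for `u ≡ 1` on `V₁, V₂, V₃` with `m ∣ div u` and
  `N_α u`, `N_β u` `m`-th powers there is a colouring `κ` such that `u ^ ((q - 1) (q + 1))` has a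
  purity datum with normalised values (`H193.BasePureValuesAt`) at every closed point of the
  special fibre of the two charts.  (`H630.basePureValuesAt_single`, `_triple`.)

The wall (step (c6)) is `H193.exists_pow_eq_of_three` (on main).
Definitions only (no `sorry`).
-/

set_option autoImplicit false
set_option linter.style.haveILetI false
set_option linter.unusedSectionVars false
set_option synthInstance.maxHeartbeats 400000
set_option maxHeartbeats 1600000

noncomputable section

namespace Fermat.Agent.S36.Alg3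

open Fermat.Agent.S18.H138 (chart)
open Fermat.Agent.S36.Eng
open Fermat.Agent.A2.H12 (IsSheet)

/-- The three valuation rings, as a set. -/
def three {F : Type*} [Field F] (V₁ V₂ V₃ : ValuationSubring F) : Set (ValuationSubring F) :=
  {V | V = V₁ ∨ V = V₂ ∨ V = V₃}

/-- **Leaf STEP-A** (steps (a), (b) of ALG3).  Owner: helper586. -/
def LeafStepA : Prop :=
  ∀ {R E F F' : Type} [CommRing R] [IsDomain R] [IsDiscreteValuationRing R]
    [HenselianLocalRing R] [IsAlgClosed (IsLocalRing.ResidueField R)]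
    [Field E] [CharZero E] [Algebra R E] [IsFractionRing R E]
    [Field F] [Algebra E F] [Algebra R F] [IsScalarTower R E F]
    [Field F'] [Algebra E F'] [Algebra R F'] [IsScalarTower R E F']
    (w : R) (_ : Irreducible w) (q : ℕ) (_ : q.Prime)
    (_ : (q : R) ∈ IsLocalRing.maximalIdeal R)
    (α β : F' →ₐ[E] F) (x : F) (x' : F')
    (V₁ V₂ V₃ : ValuationSubring F) (V₁' V₂' : ValuationSubring F')
    (_ : TripleCtx w q α β x x' V₁ V₂ V₃ V₁' V₂'),
    ∀ m : ℕ, 0 < m → ¬ q ∣ m →
      ∀ f : F, f ≠ 0 → S35.G.NormPow α m f → S35.G.NormPow β m f →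
        ∃ (s : ℤ) (G u : F) (k₁ k₂ : F'), G ≠ 0 ∧
          f ^ (q ^ 2 - 1) = algebraMap R F w ^ s * G ^ m * u ∧
          u - 1 ∈ V₁.nonunits ∧ u - 1 ∈ V₂.nonunits ∧ u - 1 ∈ V₃.nonunits ∧
          S29.H395.normAlong α u = k₁ ^ m ∧ S29.H395.normAlong β u = k₂ ^ m

/-- **Leaf SHEETS** (G2): every sheet of `x` is one of `V₁, V₂, V₃`. -/
def LeafSheets : Prop :=
  ∀ {R E F F' : Type} [CommRing R] [IsDomain R] [IsDiscreteValuationRing R]
    [HenselianLocalRing R] [IsAlgClosed (IsLocalRing.ResidueField R)]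
    [Field E] [CharZero E] [Algebra R E] [IsFractionRing R E]
    [Field F] [Algebra E F] [Algebra R F] [IsScalarTower R E F]
    [Field F'] [Algebra E F'] [Algebra R F'] [IsScalarTower R E F']
    (w : R) (_ : Irreducible w) (q : ℕ) (_ : q.Prime)
    (_ : (q : R) ∈ IsLocalRing.maximalIdeal R)
    (α β : F' →ₐ[E] F) (x : F) (x' : F')
    (V₁ V₂ V₃ : ValuationSubring F) (V₁' V₂' : ValuationSubring F')
    (_ : TripleCtx w q α β x x' V₁ V₂ V₃ V₁' V₂'),
    ∀ V : ValuationSubring F, IsSheet w x V → V = V₁ ∨ V = V₂ ∨ V = V₃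

/-- **Leaf PURE** (steps (c1)–(c5)): purity data with normalised values at every closed point of
the special fibre of the two charts, for `u ^ ((q - 1) (q + 1))`. -/
def LeafPure : Prop :=
  ∀ {R E F F' : Type} [CommRing R] [IsDomain R] [IsDiscreteValuationRing R]
    [HenselianLocalRing R] [IsAlgClosed (IsLocalRing.ResidueField R)]
    [Field E] [CharZero E] [Algebra R E] [IsFractionRing R E]
    [Field F] [Algebra E F] [Algebra R F] [IsScalarTower R E F]
    [Field F'] [Algebra E F'] [Algebra R F'] [IsScalarTower R E F']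
    (w : R) (_ : Irreducible w) (q : ℕ) (_ : q.Prime)
    (_ : (q : R) ∈ IsLocalRing.maximalIdeal R)
    (α β : F' →ₐ[E] F) (x : F) (x' : F')
    (V₁ V₂ V₃ : ValuationSubring F) (V₁' V₂' : ValuationSubring F')
    (_ : TripleCtx w q α β x x' V₁ V₂ V₃ V₁' V₂'),
    ∀ m : ℕ, 0 < m → ¬ q ∣ m → ∀ ζ : R, IsPrimitiveRoot ζ m →
      ∀ u : F, u ≠ 0 → A2.DivisibleDiv E m u →
        u - 1 ∈ V₁.nonunits → u - 1 ∈ V₂.nonunits → u - 1 ∈ V₃.nonunits →
        ∀ k₁ k₂ : F', S29.H395.normAlong α u = k₁ ^ m → S29.H395.normAlong β u = k₂ ^ m →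
          ∃ κ : ValuationSubring F → ℕ,
            (∀ 𝔫 : Ideal (chart R ({x} : Set F)), 𝔫.IsMaximal →
              algebraMap R (chart R ({x} : Set F)) w ∈ 𝔫 →
              H193.BasePureValuesAt (three V₁ V₂ V₃) (chart R ({x} : Set F)) 𝔫 m
                (u ^ ((q - 1) * (q + 1))) ζ κ) ∧
            (∀ 𝔫 : Ideal (chart R ({x⁻¹} : Set F)), 𝔫.IsMaximal →
              algebraMap R (chart R ({x⁻¹} : Set F)) w ∈ 𝔫 →
              H193.BasePureValuesAt (three V₁ V₂ V₃) (chart R ({x⁻¹} : Set F)) 𝔫 m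
                (u ^ ((q - 1) * (q + 1))) ζ κ)

end Fermat.Agent.S36.Alg3

end
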