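import Fermat.Agent.S36.Alg3.Skel
import Fermat.Agent.S36.H586.LeafStepA
import Fermat.Agent.S36.H79.LeafSheets
import Fermat.Agent.S36.H630.LeafPure

/-!
# S36 / ALG3 — CLOSED (sub-architect helper586)

    alg3 : Eng.Alg3Statement

from the three leaves on main:
* `H586.leafStepA`  (helper586; steps (a), (b): norm calculus + approximation),
* `H79.leafSheets`  (helper79, from helper919's `h919_hsheets_of_ctx`),
* `H630.leafPure`   (helper630 G4 + KAPPA + chart change, helper987 G3 purity),
and the label wall `H193.exists_pow_eq_of_three` (helper193).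
-/

set_option autoImplicit false

namespace Fermat.Agent.S36.Alg3

/-- **ALG3.**  `Eng.Alg3Statement`, unconditionally. -/
theorem alg3 : Fermat.Agent.S36.Eng.Alg3Statement :=
  alg3_of_leaves Fermat.Agent.S36.H586.leafStepA Fermat.Agent.S36.H79.leafSheets
    Fermat.Agent.S36.H630.leafPure

end Fermat.Agent.S36.Alg3
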