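import Fermat.Agent.S36.Alg3.Spec
import Fermat.Agent.S36.H586.G1Dvr
import Fermat.Agent.A2.Alg.H348.Roots

/-!
# S36 / ALG3 — skeleton (sub-architect helper586)

    alg3_of_leaves : LeafStepA → LeafSheets → LeafPure → Eng.Alg3Statement

with `C = (q² - 1) * ((q - 1) * (q + 1))`.  Sorry-free; the wall is
`H193.exists_pow_eq_of_three`.
-/

set_option autoImplicit false
set_option linter.style.haveILetI false
set_option linter.unusedSectionVars false
set_option linter.unusedVariables false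
set_option synthInstance.maxHeartbeats 400000
set_option maxHeartbeats 1600000

noncomputable section

namespace Fermat.Agent.S36.Alg3

open Fermat.Agent.S18.H138 (chart)
open Fermat.Agent.S36.Eng
open Fermat.Agent.S36.H586

section Aux

variable {F : Type*} [Field F]

theorem sub_one_mem_nonunits_pow {V : ValuationSubring F} {u : F} (hu : u - 1 ∈ V.nonunits)
    (n : ℕ) : u ^ n - 1 ∈ V.nonunits := by
  have h1 : PU V u := (ValuationSubring.mem_nonunits_iff V).1 hu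
  exact (ValuationSubring.mem_nonunits_iff V).2 (h1.pow n)

theorem ne_zero_of_sub_one_mem_nonunits {V : ValuationSubring F} {u : F}
    (hu : u - 1 ∈ V.nonunits) : u ≠ 0 :=
  PU.ne_zero ((ValuationSubring.mem_nonunits_iff V).1 hu)

/-- A discrete valuation subring with uniformiser `t` is `t`-adically discrete. -/
theorem exists_mul_pow_mem_of_unif (V : ValuationSubring F) [IsDiscreteValuationRing V] {t : F}
    (ht0 : t ≠ 0) (ht : t ∈ V.nonunits) (hgen : ∀ f ∈ V.nonunits, f * t⁻¹ ∈ V) (g : F) :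
    ∃ k : ℕ, g * t ^ k ∈ V := by
  by_cases hg : g = 0
  · exact ⟨0, by rw [hg, zero_mul]; exact V.zero_mem⟩
  obtain ⟨a, ha⟩ := exists_isOrd_of_dvr V ht0 ht hgen g hg
  refine ⟨(-a).toNat, ?_⟩
  have hvt : V.valuation t < 1 := val_lt_one_of_mem_nonunits ht
  have hvt0 : 0 < V.valuation t := zero_lt_iff.2 ((Valuation.ne_zero_iff _).2 ht0)
  rw [← ValuationSubring.valuation_le_one_iff, map_mul, map_pow]
  unfold IsOrd at ha
  rw [ha, ← zpow_natCast, ← zpow_add₀ hvt0.ne']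
  have hnn : 0 ≤ a + ((-a).toNat : ℤ) := by
    have := Int.self_le_toNat (-a)
    omega
  have h1 : V.valuation t ^ (a + ((-a).toNat : ℤ)) ≤ V.valuation t ^ (0 : ℤ) :=
    (zpow_le_zpow_iff_right_of_lt_one₀ hvt0 hvt).2 hnn
  simpa using h1

end Aux

/-- `m ∣ div` is stable under the operations of step (a). -/
theorem divisibleDiv_of_eq {E F : Type*} [Field E] [Field F] [Algebra E F] {m : ℕ} {n : ℕ}
    {f G u : F} {c : E} (hc : c ≠ 0) (hG : G ≠ 0) (hdiv : A2.DivisibleDiv E m f)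
    (h : f ^ n = algebraMap E F c * G ^ m * u) : A2.DivisibleDiv E m u := by
  intro V hV hEV
  obtain ⟨h₀, u₀, hh₀, hu₀, hu₀', hfu⟩ := hdiv V hV hEV
  have hcF : algebraMap E F c ≠ 0 := (map_ne_zero (algebraMap E F)).2 hc
  refine ⟨h₀ ^ n * G⁻¹, u₀ ^ n * (algebraMap E F c)⁻¹, mul_ne_zero (pow_ne_zero _ hh₀)
    (inv_ne_zero hG), ?_, ?_, ?_⟩
  · refine V.mul_mem _ _ (pow_mem hu₀ n) ?_
    rw [← map_inv₀]
    exact hEV _
  · rw [mul_inv, inv_inv, ← inv_pow]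
    exact V.mul_mem _ _ (pow_mem hu₀' n) (hEV c)
  · have hGm : G ^ m ≠ 0 := pow_ne_zero _ hG
    have h1 : u = f ^ n * (algebraMap E F c)⁻¹ * (G ^ m)⁻¹ := by
      rw [h]
      field_simp
    rw [h1, hfu, mul_pow, mul_pow, ← pow_mul, ← pow_mul, mul_comm m n, inv_pow]
    ring

/-- **ALG3 from its three leaves.** -/
theorem alg3_of_leaves (hA : LeafStepA) (hS : LeafSheets) (hP : LeafPure) : Alg3Statement := by
  intro R E F F' _ _ _ _ _ _ _ _ _ _ _ _ _ _ _ _ _ w hw q hq hqR α β x x' V₁ V₂ V₃ V₁' V₂' T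
  have hq2 : 2 ≤ q := hq.two_le
  have hc0 : 0 < (q - 1) * (q + 1) := Nat.mul_pos (by omega) (by omega)
  have hq21 : 0 < q ^ 2 - 1 := by
    have : 4 ≤ q ^ 2 := by nlinarith
    omega
  refine ⟨(q ^ 2 - 1) * ((q - 1) * (q + 1)), Nat.mul_pos hq21 hc0, ?_⟩
  intro m hm hqm f hf hdiv hNα hNβ
  obtain ⟨s, G, u, k₁, k₂, hG, hfu, hu₁, hu₂, hu₃, hk₁, hk₂⟩ :=
    hA w hw q hq hqR α β x x' V₁ V₂ V₃ V₁' V₂' T m hm hqm f hf hNα hNβ
  have hu0 : u ≠ 0 := ne_zero_of_sub_one_mem_nonunits hu₁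
  -- the uniformiser in `E` and `F`
  have hinjRE : Function.Injective (algebraMap R E) := IsFractionRing.injective R E
  have hwE : algebraMap R E w ≠ 0 := fun h => hw.ne_zero (hinjRE (by rw [h, map_zero]))
  have hwF : algebraMap R F w = algebraMap E F (algebraMap R E w) :=
    IsScalarTower.algebraMap_apply R E F w
  have hfu' : f ^ (q ^ 2 - 1) = algebraMap E F (algebraMap R E w ^ s) * G ^ m * u := by
    rw [hfu, hwF, map_zpow₀]
  have hdivu : A2.DivisibleDiv E m u :=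
    divisibleDiv_of_eq (zpow_ne_zero _ hwE) hG hdiv hfu'
  -- roots of unity and the purity data
  obtain ⟨ζ, hζ⟩ := Fermat.Agent.A2.Alg.H348.exists_primitiveRoot (R := R) q m hq hqR hm hqm
  obtain ⟨κ, hfin, hinf⟩ := hP w hw q hq hqR α β x x' V₁ V₂ V₃ V₁' V₂' T m hm hqm ζ hζ u hu0
    hdivu hu₁ hu₂ hu₃ k₁ k₂ hk₁ hk₂
  -- the wall
  haveI := T.dvr₁
  have hdisc : ∀ g : F, ∃ k : ℕ, g * algebraMap R F w ^ k ∈ V₁ :=
    exists_mul_pow_mem_of_unif V₁ T.unif₁.1 T.unif₁.2.1 T.unif₁.2.2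
  obtain ⟨g, hg⟩ := H193.exists_pow_eq_of_three E w hw q hq hqR T.hx T.hfin hm hqm hζ
    (f := u ^ ((q - 1) * (q + 1))) (pow_ne_zero _ hu0) V₁ V₂ V₃
    (hS w hw q hq hqR α β x x' V₁ V₂ V₃ V₁' V₂' T)
    (sub_one_mem_nonunits_pow hu₁ _) (sub_one_mem_nonunits_pow hu₂ _)
    (sub_one_mem_nonunits_pow hu₃ _) T.base₁ T.unif₁.2.1 T.unif₁.2.2 hdisc κ hfin hinf
  have hg0 : g ≠ 0 := by
    rintro rfl
    rw [zero_pow hm.ne'] at hg
    exact pow_ne_zero _ hu0 hg.symm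
  refine ⟨(algebraMap R E w ^ s) ^ ((q - 1) * (q + 1)), G ^ ((q - 1) * (q + 1)) * g,
    mul_ne_zero (pow_ne_zero _ hG) hg0, ?_⟩
  rw [pow_mul, hfu', mul_pow, mul_pow, ← hg, map_pow, mul_pow, ← pow_mul, ← pow_mul,
    mul_comm m ((q - 1) * (q + 1))]
  ring

end Fermat.Agent.S36.Alg3

end
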